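import Fermat.Agent.ML.At2.Ops.TAut
import Fermat.Agent.ML.Ihara.PullB
import Fermat.Agent.S36.Mod.AL2
import Fermat.Agent.RIB.Deg.Kum
import Fermat.Agent.RIB.Deg.Fun

/-!
# ML / AT-2 / OPS : automorphisms of `F_N` acting on `J₀(N)`

CONVENTION : an algebra automorphism `g` of `F_N` acts on `J₀(N)` by `RIB.jPull (g : FN N →ₐ[Kb] FN N)`.

* `jPull_algEquiv`   : `jPull g x = SemilinearAut.ofAlgAut g • x`  (all `x`);
* `kum_jPull`        : `Kum m x f → Kum m (jPull φ x) (φ f)`;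
* `isKummer_jPull`   : generic bridge : `Θ (a u) = (Θ u) ∘ g` ⟹ `IsKummer χ x → IsKummer (χ ∘ conj g) (jPull a x)`;
* `IsKummer.tAut`, `IsKummer.alW`;
* `gal_tAut`, `smul_jPull_tAut` : `σ ∘ t_ζ = t_{σ ζ} ∘ σ`.
-/

set_option autoImplicit false
set_option linter.unusedSectionVars false
set_option linter.unusedSimpArgs false

open AlgebraicCurve ModularCurve CongruenceSubgroup ModularForm
open scoped MatrixGroups
open Matrix.SpecialLinearGroup (mapGL)
open Fermat.Agent.S24 Fermat.Agent.GAL Fermat.Agent.GAL.HeckeEquiv Fermat.Agent.RED.ES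
open Fermat.Agent.S48.ModL.HP

namespace Fermat.Agent.ML.At2

noncomputable section

/-! ### pull-back along an automorphism -/

section Generic

variable {K F : Type*} [Field K] [Field F] [Algebra K F]

theorem restrictAlong_algEquiv (g : F ≃ₐ[K] F) (hg : (g : F →ₐ[K] F).toRingHom.IsIntegral)
    (w : Place K F) :
    w.restrictAlong (g : F →ₐ[K] F) hg = (SemilinearAut.ofAlgAut g)⁻¹ • w := by
  ext1
  ext x
  rw [SemilinearAut.smul_toValuationSubring, ValuationSubring.mem_pointwise_smul_iff_inv_smul_mem,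
    inv_inv]
  exact Iff.rfl

theorem ramificationIndexAlong_algEquiv (g : F ≃ₐ[K] F)
    (hg : (g : F →ₐ[K] F).toRingHom.IsIntegral) (w : Place K F) :
    Place.ramificationIndexAlong (g : F →ₐ[K] F) w = 1 := by
  obtain ⟨π, hπ⟩ := IsDiscreteValuationRing.exists_irreducible
    ((SemilinearAut.ofAlgAut g)⁻¹ • w).toValuationSubring
  have h1 := Place.ord_restrictAlong (g : F →ₐ[K] F) hg w (π : F)
  rw [restrictAlong_algEquiv, Place.ord_coe_irreducible _ hπ, mul_one] at h1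
  have h2 := SemilinearAut.ord_smul (SemilinearAut.ofAlgAut g) ((SemilinearAut.ofAlgAut g)⁻¹ • w)
    (π : F)
  rw [smul_inv_smul, SemilinearAut.ofAlgAut_smul, Place.ord_coe_irreducible _ hπ] at h2
  have h3 : w.ord ((g : F →ₐ[K] F) (π : F)) = 1 := h2
  rw [h3] at h1
  exact_mod_cast h1.symm

theorem pullbackAlong_algEquiv [HasPrincipalDivisors K F] (g : F ≃ₐ[K] F)
    (hg : (g : F →ₐ[K] F).toRingHom.IsIntegral) (D : Divisor K F) :
    Divisor.pullbackAlong (g : F →ₐ[K] F) hg D = SemilinearAut.ofAlgAut g • D := by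
  ext w
  rw [Divisor.pullbackAlong_apply, ramificationIndexAlong_algEquiv g hg, restrictAlong_algEquiv,
    SemilinearAut.divisor_smul_apply]
  simp

end Generic

variable {N : ℕ} [NeZero N]

/-- `g^* = g •` on `J₀(N)`. -/
theorem jPull_algEquiv (g : FN N ≃ₐ[Kb] FN N) (x : JZero N) :
    RIB.jPull (g : FN N →ₐ[Kb] FN N) x = SemilinearAut.ofAlgAut g • x := by
  obtain ⟨D, rfl⟩ := Pic0.mk_surjective x
  rw [RIB.jPull_mk, SemilinearAut.pic0_smul_mk]
  refine congrArg Pic0.mk (Subtype.ext ?_)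
  rw [RED.coe_pullDegZero, SemilinearAut.coe_degZeroSMulHom, pullbackAlong_algEquiv]

theorem kum_jPull {N' : ℕ} [NeZero N'] (φ : FN N →ₐ[Kb] FN N') {m : ℕ} {x : JZero N} {f : FN N}
    (hx : RIB.Kum m x f) : RIB.Kum m (RIB.jPull φ x) (φ f) :=
  hx.pull _ _ _

/-! ### the generic bridge to characters -/

theorem compMer_eq_merGL (g : GL (Fin 2) ℝ) (hg : 0 < g.det.val) (u : Mer) :
    compMer g hg u = merGL g hg u := by
  obtain ⟨a, b, -, rfl⟩ := IsFractionRing.div_surjective (A := Hol) u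
  rw [map_div₀, map_div₀, compMer_algebraMap, compMer_algebraMap, merGL_algebraMap,
    merGL_algebraMap]

/-- **generic bridge** : `Θ (a u) = (Θ u) ∘ g` ⟹ `a^*` transports Kummer characters by conjugation with `g`. -/
theorem isKummer_jPull {L L' m : ℕ} [NeZero L] [NeZero L'] (a : FN L →ₐ[Kb] FN L')
    (g : GL (Fin 2) ℝ) (hg : 0 < g.det.val)
    (ha : ∀ u, ThetaMer L' (a u) = merGL g hg (ThetaMer L u))
    (hex : ∀ γ : Gamma0 L', ∃ γ' : Gamma0 L,
      g * mapGL ℝ (γ : SL(2, ℤ)) = mapGL ℝ (γ' : SL(2, ℤ)) * g)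
    {χ : Gamma0 L →* ℂˣ} {x : JZero L} (h : IsKummer L m χ x) (χ' : Gamma0 L' →* ℂˣ)
    (hχ' : ∀ (γ : Gamma0 L') (γ' : Gamma0 L),
      g * mapGL ℝ (γ : SL(2, ℤ)) = mapGL ℝ (γ' : SL(2, ℤ)) * g → χ' γ = χ γ') :
    IsKummer L' m χ' (RIB.jPull a x) := by
  obtain ⟨D, u, h, hu, hD, hθ, hχ, rfl⟩ := h
  refine ⟨RED.pullDegZero a (GAL.HeckeComm.isIntegral_any a) (RIB.fundamentalIdentity_any a) D,
    a u, merGL g hg h, ?_, ?_, ?_, ?_, rfl⟩
  · simpa using hu
  · intro v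
    exact ord_map_eq_mul_pullback _ (GAL.HeckeComm.isIntegral_any a) (m : ℤ) D u hD v
  · rw [ha, hθ, map_pow]
  · intro γ
    obtain ⟨d, hd⟩ := hex (γ⁻¹ : Gamma0 L')
    have htr : χ' γ⁻¹ = χ d := hχ' γ⁻¹ d hd
    have e1 : actMer ((d : SL(2, ℤ)))⁻¹ h = algebraMap ℂ Mer (((χ d)⁻¹ : ℂˣ) : ℂ) * h := by
      have := hχ d⁻¹
      rwa [map_inv] at this
    have hdx : g * mapGL ℝ (γ : SL(2, ℤ))⁻¹ = mapGL ℝ (d : SL(2, ℤ)) * g := hd
    rw [actMer_eq_merGL, merGL_merGL, merGL_congr hdx,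
      ← merGL_merGL _ _ hg (det_mapGL_pos (d : SL(2, ℤ))), merGL_mapGL, e1,
      map_mul, AlgHom.commutes, ← htr, map_inv, inv_inv]

theorem coe_tAut_eq_tHom (h9 : 9 ∣ N) (ζ : Kbˣ) (hζ : ζ ^ 3 = 1) :
    (tAut N h9 ζ hζ : FN N →ₐ[Kb] FN N) = tHom N h9 ζ hζ := AlgHom.ext fun _ => rfl

theorem ThetaMer_tHom (h9 : 9 ∣ N) (u : FN N) :
    ThetaMer N (tHom N h9 omega3 omega3_pow u) =
      merGL (trMat (1 / 3)) (det_trMat_pos _) (ThetaMer N u) := ThetaMer_tAut N h9 u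

/-- **(E2) bridge for `t`** (`τ ↦ τ + 1/3`). -/
theorem isKummer_tHom (h9 : 9 ∣ N) {m : ℕ} {χ : Gamma0 N →* ℂˣ} {x : JZero N}
    (h : IsKummer N m χ x) (χ' : Gamma0 N →* ℂˣ)
    (hχ' : ∀ γ γ' : Gamma0 N, trMat (1 / 3) * mapGL ℝ (γ : SL(2, ℤ)) =
      mapGL ℝ (γ' : SL(2, ℤ)) * trMat (1 / 3) → χ' γ = χ γ') :
    IsKummer N m χ' (RIB.jPull (tHom N h9 omega3 omega3_pow) x) :=
  isKummer_jPull (tHom N h9 omega3 omega3_pow) (trMat (1 / 3)) (det_trMat_pos _)
    (ThetaMer_tHom h9) (exists_conj_trMat h9) h χ' hχ'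

/-! ### the Atkin–Lehner involution `W_Q` (`S36.alW`) as an algebra automorphism -/

section W

variable (L N' Q : ℕ) [NeZero L] [NeZero N'] [NeZero Q] (hL : L = N' * Q)
  (x y : ℤ) (h : (Q : ℤ) * x - N' * y = 1)

/-- `S36.alW` as an algebra endomorphism. -/
def wHom : FN L →ₐ[Kb] FN L :=
  { S36.alW L N' Q hL x y h with commutes' := S36.alW_algebraMap L N' Q hL x y h }

theorem wHom_apply (f : FN L) : wHom L N' Q hL x y h f = S36.alW L N' Q hL x y h f := rfl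

theorem wHom_wHom (f : FN L) : wHom L N' Q hL x y h (wHom L N' Q hL x y h f) = f :=
  S36.alW_alW L N' Q hL x y h f

/-- `S36.alW` as an algebra automorphism. -/
def wAut : FN L ≃ₐ[Kb] FN L :=
  AlgEquiv.ofAlgHom (wHom L N' Q hL x y h) (wHom L N' Q hL x y h)
    (AlgHom.ext fun f => wHom_wHom L N' Q hL x y h f)
    (AlgHom.ext fun f => wHom_wHom L N' Q hL x y h f)

theorem coe_wAut_eq_wHom :
    (wAut L N' Q hL x y h : FN L →ₐ[Kb] FN L) = wHom L N' Q hL x y h := AlgHom.ext fun _ => rfl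

theorem ThetaMer_wHom (f : FN L) :
    ThetaMer L (wHom L N' Q hL x y h f) =
      merGL (wGL N' Q x y h) (det_wGL_pos N' Q x y h) (ThetaMer L f) := by
  rw [wHom_apply, S36.ThetaMer_alW, compMer_eq_merGL]

include hL in
theorem exists_conj_wGL (g : Gamma0 L) : ∃ g' : Gamma0 L,
    wGL N' Q x y h * mapGL ℝ (g : SL(2, ℤ)) = mapGL ℝ (g' : SL(2, ℤ)) * wGL N' Q x y h := by
  obtain ⟨c₀, hc₀⟩ := (mem_Gamma0_iff_dvd_ops L _).mp g.2
  have hdet := Matrix.det_fin_two ((g : SL(2, ℤ)) : Matrix (Fin 2) (Fin 2) ℤ)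
  rw [(g : SL(2, ℤ)).2] at hdet
  set a := (g : SL(2, ℤ)) 0 0 with ha
  set b := (g : SL(2, ℤ)) 0 1 with hb
  set c := (g : SL(2, ℤ)) 1 0 with hc
  set d := (g : SL(2, ℤ)) 1 1 with hd
  have hc' : c = N' * Q * c₀ := by rw [hc₀, hL]; push_cast; ring
  let g' : SL(2, ℤ) := ⟨!![Q * x * a + y * c - N' * Q * x * b - N' * y * d,
      -(x * y * a) - y * y * N' * c₀ + Q * x * x * b + x * y * d;
      (L : ℤ) * (a + Q * c₀ - N' * b - d),
      -(N' * y * a) - y * c + N' * Q * x * b + Q * x * d], by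
    rw [Matrix.det_fin_two_of, hL]
    push_cast
    rw [hc'] at hdet ⊢
    linear_combination (a * d - b * (N' * Q * c₀)) * ((Q : ℤ) * x - N' * y + 1) * h - hdet⟩
  have h00 : g' 0 0 = Q * x * a + y * c - N' * Q * x * b - N' * y * d := rfl
  have h01 : g' 0 1 = -(x * y * a) - y * y * N' * c₀ + Q * x * x * b + x * y * d := rfl
  have h10 : g' 1 0 = (L : ℤ) * (a + Q * c₀ - N' * b - d) := rfl
  have h11 : g' 1 1 = -(N' * y * a) - y * c + N' * Q * x * b + Q * x * d := rfl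
  clear_value g'
  refine ⟨⟨g', (mem_Gamma0_iff_dvd_ops _ _).mpr ⟨_, h10⟩⟩, ?_⟩
  have h' : (Q : ℝ) * x - N' * y = 1 := by exact_mod_cast h
  have hcR : (c : ℝ) = N' * Q * c₀ := by rw [hc']; push_cast; ring
  have hLR : (L : ℝ) = N' * Q := by rw [hL]; push_cast; ring
  apply Units.ext
  rw [Units.val_mul, Units.val_mul]
  ext i j
  fin_cases i <;> fin_cases j
  · simp only [wGL, wMat, Matrix.mul_apply, Fin.sum_univ_two, h00, h01, h10, h11, ← ha, ← hb, ← hc,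
      ← hd, hcR, hLR,
      Matrix.GeneralLinearGroup.val_mkOfDetNeZero, Fin.zero_eta, Fin.mk_one, Fin.isValue,
      Matrix.of_apply,
      Matrix.cons_val', Matrix.cons_val_zero, Matrix.cons_val_one, Matrix.cons_val_fin_one,
      Matrix.SpecialLinearGroup.mapGL_coe_matrix, Matrix.SpecialLinearGroup.map_apply_coe,
      RingHom.mapMatrix_apply, Matrix.map_apply, eq_intCast, Int.cast_add, Int.cast_sub,
      Int.cast_mul, Int.cast_neg, Int.cast_natCast]
    linear_combination (-((Q : ℝ) * x * a + y * (N' * Q * c₀))) * h'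
  · simp only [wGL, wMat, Matrix.mul_apply, Fin.sum_univ_two, h00, h01, h10, h11, ← ha, ← hb, ← hc,
      ← hd, hcR, hLR,
      Matrix.GeneralLinearGroup.val_mkOfDetNeZero, Fin.zero_eta, Fin.mk_one, Fin.isValue,
      Matrix.of_apply,
      Matrix.cons_val', Matrix.cons_val_zero, Matrix.cons_val_one, Matrix.cons_val_fin_one,
      Matrix.SpecialLinearGroup.mapGL_coe_matrix, Matrix.SpecialLinearGroup.map_apply_coe,
      RingHom.mapMatrix_apply, Matrix.map_apply, eq_intCast, Int.cast_add, Int.cast_sub,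
      Int.cast_mul, Int.cast_neg, Int.cast_natCast]
    linear_combination (-((Q : ℝ) * x * b + y * d)) * h'
  · simp only [wGL, wMat, Matrix.mul_apply, Fin.sum_univ_two, h00, h01, h10, h11, ← ha, ← hb, ← hc,
      ← hd, hcR, hLR,
      Matrix.GeneralLinearGroup.val_mkOfDetNeZero, Fin.zero_eta, Fin.mk_one, Fin.isValue,
      Matrix.of_apply,
      Matrix.cons_val', Matrix.cons_val_zero, Matrix.cons_val_one, Matrix.cons_val_fin_one,
      Matrix.SpecialLinearGroup.mapGL_coe_matrix, Matrix.SpecialLinearGroup.map_apply_coe,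
      RingHom.mapMatrix_apply, Matrix.map_apply, eq_intCast, Int.cast_add, Int.cast_sub,
      Int.cast_mul, Int.cast_neg, Int.cast_natCast]
    linear_combination (-((N' : ℝ) * Q * a + Q * (N' * Q * c₀))) * h'
  · simp only [wGL, wMat, Matrix.mul_apply, Fin.sum_univ_two, h00, h01, h10, h11, ← ha, ← hb, ← hc,
      ← hd, hcR, hLR,
      Matrix.GeneralLinearGroup.val_mkOfDetNeZero, Fin.zero_eta, Fin.mk_one, Fin.isValue,
      Matrix.of_apply,
      Matrix.cons_val', Matrix.cons_val_zero, Matrix.cons_val_one, Matrix.cons_val_fin_one,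
      Matrix.SpecialLinearGroup.mapGL_coe_matrix, Matrix.SpecialLinearGroup.map_apply_coe,
      RingHom.mapMatrix_apply, Matrix.map_apply, eq_intCast, Int.cast_add, Int.cast_sub,
      Int.cast_mul, Int.cast_neg, Int.cast_natCast]
    linear_combination (-((N' : ℝ) * Q * b + Q * d)) * h'

/-- **(E2) bridge for `W_Q`** (`wGL N' Q x y h = [[Q x, y],[N' Q, Q]]`). -/
theorem isKummer_wHom {m : ℕ} {χ : Gamma0 L →* ℂˣ} {z : JZero L}
    (hz : IsKummer L m χ z) (χ' : Gamma0 L →* ℂˣ)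
    (hχ' : ∀ γ γ' : Gamma0 L, wGL N' Q x y h * mapGL ℝ (γ : SL(2, ℤ)) =
      mapGL ℝ (γ' : SL(2, ℤ)) * wGL N' Q x y h → χ' γ = χ γ') :
    IsKummer L m χ' (RIB.jPull (wHom L N' Q hL x y h) z) :=
  isKummer_jPull (wHom L N' Q hL x y h) (wGL N' Q x y h) (det_wGL_pos N' Q x y h)
    (ThetaMer_wHom L N' Q hL x y h) (exists_conj_wGL L N' Q hL x y h) hz χ' hχ'

end W

/-! ### Galois -/

local notation "GQ" => (AlgebraicClosure ℚ ≃ₐ[ℚ] AlgebraicClosure ℚ)

/-- `σ ζ` -/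
def galU (σ : GQ) (ζ : Kbˣ) : Kbˣ := Units.map ((σ : Kb →+* Kb) : Kb →* Kb) ζ

theorem galU_pow (σ : GQ) {ζ : Kbˣ} (hζ : ζ ^ 3 = 1) : galU σ ζ ^ 3 = 1 := by
  rw [galU, ← map_pow, hζ, map_one]

theorem coe_galU (σ : GQ) (ζ : Kbˣ) : ((galU σ ζ : Kbˣ) : Kb) = σ (ζ : Kb) := rfl

/-- `σ (t_ζ u) = t_{σ ζ} (σ u)` on functions. -/
theorem gal_smul_tHom (h9 : 9 ∣ N) (σ : GQ) (ζ : Kbˣ) (hζ : ζ ^ 3 = 1) (u : FN N) :
    arithmeticGalois (modularFunctionFieldFull N) σ • tHom N h9 ζ hζ u =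
      tHom N h9 (galU σ ζ) (galU_pow σ hζ) (arithmeticGalois (modularFunctionFieldFull N) σ • u) := by
  apply Subtype.ext
  rw [coe_arithmeticGalois_smul, coe_tHom, coe_tHom, coe_arithmeticGalois_smul, coeffMap_rotR]
  rfl

theorem gal_mul_tAut (h9 : 9 ∣ N) (σ : GQ) (ζ : Kbˣ) (hζ : ζ ^ 3 = 1) :
    arithmeticGalois (modularFunctionFieldFull N) σ * SemilinearAut.ofAlgAut (tAut N h9 ζ hζ) =
      SemilinearAut.ofAlgAut (tAut N h9 (galU σ ζ) (galU_pow σ hζ)) *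
        arithmeticGalois (modularFunctionFieldFull N) σ := by
  refine Subtype.ext (Prod.ext ?_ ?_)
  · exact RingEquiv.ext fun u => gal_smul_tHom h9 σ ζ hζ u
  · exact RingEquiv.ext fun _ => rfl

/-- **`σ ∘ t_ζ = t_{σ ζ} ∘ σ`** on `J₀(N)`. -/
theorem smul_jPull_tHom (h9 : 9 ∣ N) (σ : GQ) (ζ : Kbˣ) (hζ : ζ ^ 3 = 1) (x : JZero N) :
    σ • RIB.jPull (tHom N h9 ζ hζ) x =
      RIB.jPull (tHom N h9 (galU σ ζ) (galU_pow σ hζ)) (σ • x) := by
  rw [← coe_tAut_eq_tHom, ← coe_tAut_eq_tHom, jPull_algEquiv, jPull_algEquiv,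
    galois_smul_pic0_def, galois_smul_pic0_def, ← mul_smul, ← mul_smul, gal_mul_tAut]

/-! ### group laws on `J₀(N)` -/

theorem jPull_tHom_tHom (h9 : 9 ∣ N) (ζ ξ : Kbˣ) (hζ : ζ ^ 3 = 1) (hξ : ξ ^ 3 = 1) (x : JZero N) :
    RIB.jPull (tHom N h9 ζ hζ) (RIB.jPull (tHom N h9 ξ hξ) x) =
      RIB.jPull (tHom N h9 (ζ * ξ) (by rw [mul_pow, hζ, hξ, one_mul])) x := by
  rw [← RIB.jPull_comp]
  exact congrArg (fun φ => RIB.jPull φ x) (AlgHom.ext fun u => tHom_tHom N h9 ζ ξ hζ hξ u)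

theorem jPull_id_ops (x : JZero N) : RIB.jPull (AlgHom.id Kb (FN N)) x = x := by
  have h := jPull_algEquiv (AlgEquiv.refl : FN N ≃ₐ[Kb] FN N) x
  have e : SemilinearAut.ofAlgAut (AlgEquiv.refl : FN N ≃ₐ[Kb] FN N) = 1 := map_one _
  rw [e, one_smul] at h
  exact h

theorem jPull_tHom_one (h9 : 9 ∣ N) (h1 : (1 : Kbˣ) ^ 3 = 1) (x : JZero N) :
    RIB.jPull (tHom N h9 1 h1) x = x := by
  have e : tHom N h9 1 h1 = AlgHom.id Kb (FN N) := AlgHom.ext fun u => tHom_one N h9 h1 u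
  rw [e, jPull_id_ops]

theorem jPull_tHom_congr (h9 : 9 ∣ N) {ζ ξ : Kbˣ} (h : ζ = ξ) (hζ : ζ ^ 3 = 1) (x : JZero N) :
    RIB.jPull (tHom N h9 ζ hζ) x = RIB.jPull (tHom N h9 ξ (h ▸ hζ)) x := by
  subst h; rfl

section W2

variable (L N' Q : ℕ) [NeZero L] [NeZero N'] [NeZero Q] (hL : L = N' * Q)
  (x y : ℤ) (h : (Q : ℤ) * x - N' * y = 1)

theorem jPull_wHom_wHom (z : JZero L) :
    RIB.jPull (wHom L N' Q hL x y h) (RIB.jPull (wHom L N' Q hL x y h) z) = z := by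
  rw [← RIB.jPull_comp]
  have e : (wHom L N' Q hL x y h).comp (wHom L N' Q hL x y h) = AlgHom.id Kb (FN L) :=
    AlgHom.ext fun f => wHom_wHom L N' Q hL x y h f
  rw [e, jPull_id_ops]

theorem gal_smul_jBar (σ : GQ) (d : ℕ) [NeZero d] (hd : d ∣ L) :
    arithmeticGalois (modularFunctionFieldFull L) σ • jBar L d hd = jBar L d hd := by
  apply Subtype.ext
  rw [coe_arithmeticGalois_smul, coe_jBar]
  exact S24.coeffMap_jqNModC _ d

/-- `W_Q` is defined over `ℚ`. -/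
theorem isRat_wHom : RIB.IsRat (wHom L N' Q hL x y h) := by
  intro σ
  have key : ((arithmeticRingAut (modularFunctionFieldFull L) σ : FN L ≃+* FN L) :
        FN L →+* FN L).comp (S36.alW L N' Q hL x y h) =
      (S36.alW L N' Q hL x y h).comp
        ((arithmeticRingAut (modularFunctionFieldFull L) σ : FN L ≃+* FN L) : FN L →+* FN L) := by
    apply ringHom_ext_bar
    · intro a
      simp only [RingHom.comp_apply, RingHom.coe_coe, S36.alW_algebraMap,
        arithmeticRingAut_algebraMap]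
    · intro D _ hD
      obtain ⟨d, e, e', hd, he, rfl⟩ := S36.exists_split L N' Q hL hD
      have : NeZero d := ⟨fun h0 => NeZero.ne (e * d) (by rw [h0, mul_zero])⟩
      have : NeZero e := ⟨fun h0 => NeZero.ne (e * d) (by rw [h0, zero_mul])⟩
      have : NeZero e' := ⟨fun h0 => NeZero.ne Q (by rw [← he, h0, mul_zero])⟩
      simp only [RingHom.comp_apply, RingHom.coe_coe]
      have g1 : ∀ (D : ℕ) [NeZero D] (hD : D ∣ L),
          arithmeticRingAut (modularFunctionFieldFull L) σ (jBar L D hD) = jBar L D hD :=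
        fun D _ hD => gal_smul_jBar L σ D hD
      rw [S36.alW_jBar L N' Q hL x y h d e e' hd he, g1, g1,
        S36.alW_jBar L N' Q hL x y h d e e' hd he]
  intro a
  exact congrArg (fun φ : FN L →+* FN L => φ a) key

theorem smul_jPull_wHom (σ : GQ) (z : JZero L) :
    σ • RIB.jPull (wHom L N' Q hL x y h) z = RIB.jPull (wHom L N' Q hL x y h) (σ • z) :=
  (RIB.jPull_smul (isRat_wHom L N' Q hL x y h) σ z).symm

end W2

end

end Fermat.Agent.ML.At2
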