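import Fermat.Agent.ML.At2.Ops.TMem

/-!
# ML / AT-2 / OPS : the automorphism `t_ζ : u(q) ↦ u(ζ q)`, `ζ³ = 1`, of the function field of `X₀(N)`, `9 ∣ N`

* `omega3 : Kbˣ`, `iotaK omega3 = e^{2πi/3}`, primitive cube root of unity;
* `rotR_mem_FN`  : `rotR ζ u ∈ F_N`;
* `tAut N h9 ζ hζ : FN N ≃ₐ[Kb] FN N`, `coe_tAut`;
* `ThetaMer_tAut` : `Θ (t_ω u) = (Θ u)(τ + 1/3)`.
-/

set_option autoImplicit false

open UpperHalfPlane hiding I
open Function ModularCurve CongruenceSubgroup ModularForm IntermediateField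
open scoped Manifold MatrixGroups Real
open Matrix.SpecialLinearGroup (mapGL)
open Fermat.Agent.S24 Fermat.Agent.GAL Fermat.Agent.GAL.HeckeEquiv Fermat.Agent.RED.ES
open Fermat.Agent.S48.ModL.HP

namespace Fermat.Agent.ML.At2

noncomputable section

theorem isPrimitiveRoot_expU_third : IsPrimitiveRoot (expU (1 / 3)) 3 := by
  rw [← IsPrimitiveRoot.coe_units_iff, coe_expU]
  have h := Complex.isPrimitiveRoot_exp 3 (by norm_num)
  have e : (2 * π * Complex.I * ((1 / 3 : ℝ) : ℂ)) = 2 * π * Complex.I / ((3 : ℕ) : ℂ) := by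
    push_cast; ring
  rw [e]
  exact h

theorem exists_omega3 : ∃ ω : Kbˣ, Units.map (iotaK.toRingHom : Kb →* ℂ) ω = expU (1 / 3) ∧
    IsPrimitiveRoot ω 3 := by
  have hx : IsAlgebraic ℚ ((expU (1 / 3) : ℂˣ) : ℂ) := by
    have h3 : ((expU (1 / 3) : ℂˣ) : ℂ) ^ 3 = 1 := by
      rw [← Units.val_pow_eq_pow_val, isPrimitiveRoot_expU_third.pow_eq_one, Units.val_one]
    refine ⟨Polynomial.X ^ 3 - 1, Polynomial.X_pow_sub_C_ne_zero (by norm_num) (1 : ℚ), ?_⟩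
    rw [map_sub, map_pow, Polynomial.aeval_X, map_one, h3, sub_self]
  obtain ⟨a, ha⟩ := exists_iotaK_eq _ hx
  have ha0 : a ≠ 0 := by
    rintro rfl
    rw [map_zero] at ha
    exact (expU (1 / 3)).ne_zero ha.symm
  have h1 : Units.map (iotaK.toRingHom : Kb →* ℂ) (Units.mk0 a ha0) = expU (1 / 3) :=
    Units.ext ha
  refine ⟨Units.mk0 a ha0, h1, ?_⟩
  refine IsPrimitiveRoot.of_map_of_injective (f := Units.map (iotaK.toRingHom : Kb →* ℂ)) ?_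
    (Units.map_injective iotaK.toRingHom.injective)
  rw [h1]
  exact isPrimitiveRoot_expU_third

/-- the cube root of unity of `Qbar` which is `e^{2πi/3}` in `ℂ`. -/
def omega3 : Kbˣ := exists_omega3.choose

theorem map_omega3 : Units.map (iotaK.toRingHom : Kb →* ℂ) omega3 = expU (1 / 3) :=
  exists_omega3.choose_spec.1

theorem isPrimitiveRoot_omega3 : IsPrimitiveRoot omega3 3 := exists_omega3.choose_spec.2

theorem omega3_pow : omega3 ^ 3 = 1 := isPrimitiveRoot_omega3.pow_eq_one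

variable {N : ℕ} [NeZero N] (h9 : 9 ∣ N)

include h9 in
theorem rotR_omega3_pow_mem (i : ℕ) (x : LaurentSeries Kb) (hx : x ∈ modularFunctionFieldBar N) :
    rotR (omega3 ^ i) x ∈ modularFunctionFieldBar N := by
  induction i with
  | zero => rw [pow_zero, rotR_one_left]; exact hx
  | succ i ih =>
    rw [pow_succ', ← rotR_rotR]
    exact rotR_mem_of_iotaK h9 omega3 map_omega3 ⟨_, ih⟩

include h9 in
/-- **`u(ζ q) ∈ F_N`** for `ζ³ = 1`, `9 ∣ N`. -/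
theorem rotR_mem_FN (ζ : Kbˣ) (hζ : ζ ^ 3 = 1) (u : FN N) :
    rotR ζ (u : LaurentSeries Kb) ∈ modularFunctionFieldBar N := by
  have h' : IsPrimitiveRoot (omega3 : Kb) 3 :=
    IsPrimitiveRoot.coe_units_iff.mpr isPrimitiveRoot_omega3
  obtain ⟨i, -, hi⟩ := h'.eq_pow_of_pow_eq_one (ξ := (ζ : Kb))
    (by rw [← Units.val_pow_eq_pow_val, hζ, Units.val_one])
  have e : ζ = omega3 ^ i := Units.ext (by rw [Units.val_pow_eq_pow_val, hi])
  rw [e]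
  exact rotR_omega3_pow_mem h9 i _ u.2

include h9 in
theorem rot_mem_FN (ζ : Kbˣ) (hζ : ζ ^ 3 = 1) (u : FN N) :
    rot ζ (u : LaurentSeries Kb) ∈ modularFunctionFieldBar N :=
  rotR_mem_FN h9 ζ hζ u

theorem rotR_algebraMap_ops (ζ : Kbˣ) (c : Kb) :
    rotR ζ (algebraMap Kb (LaurentSeries Kb) c) = algebraMap Kb (LaurentSeries Kb) c := by
  rw [algebraMap_laurentSeries_eq_single]
  ext n
  rw [rotR_coeff]
  rcases eq_or_ne n 0 with rfl | hn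
  · simp
  · simp [HahnSeries.coeff_single_of_ne hn]

variable (N)

/-- `u(q) ↦ u(ζ q)` as an algebra endomorphism of `F_N`. -/
def tHom (ζ : Kbˣ) (hζ : ζ ^ 3 = 1) : FN N →ₐ[Kb] FN N where
  toFun u := ⟨rotR ζ (u : LaurentSeries Kb), rotR_mem_FN h9 ζ hζ u⟩
  map_one' := Subtype.ext (map_one (rotR ζ))
  map_mul' _ _ := Subtype.ext (map_mul (rotR ζ) _ _)
  map_zero' := Subtype.ext (map_zero (rotR ζ))
  map_add' _ _ := Subtype.ext (map_add (rotR ζ) _ _)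
  commutes' c := Subtype.ext (rotR_algebraMap_ops ζ c)

theorem coe_tHom (ζ : Kbˣ) (hζ : ζ ^ 3 = 1) (u : FN N) :
    ((tHom N h9 ζ hζ u : FN N) : LaurentSeries Kb) = rotR ζ (u : LaurentSeries Kb) := rfl

theorem tHom_tHom (ζ ξ : Kbˣ) (hζ : ζ ^ 3 = 1) (hξ : ξ ^ 3 = 1) (u : FN N) :
    tHom N h9 ζ hζ (tHom N h9 ξ hξ u) = tHom N h9 (ζ * ξ) (by rw [mul_pow, hζ, hξ, one_mul]) u :=
  Subtype.ext (by rw [coe_tHom, coe_tHom, coe_tHom, rotR_rotR])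

theorem tHom_one (h1 : (1 : Kbˣ) ^ 3 = 1) (u : FN N) : tHom N h9 1 h1 u = u :=
  Subtype.ext (by rw [coe_tHom, rotR_one_left])

theorem tHom_congr {ζ ξ : Kbˣ} (h : ζ = ξ) (hζ : ζ ^ 3 = 1) (u : FN N) :
    tHom N h9 ζ hζ u = tHom N h9 ξ (h ▸ hζ) u := by
  subst h; rfl

/-- **the automorphism `t_ζ`** -/
def tAut (ζ : Kbˣ) (hζ : ζ ^ 3 = 1) : FN N ≃ₐ[Kb] FN N :=
  AlgEquiv.ofAlgHom (tHom N h9 ζ hζ) (tHom N h9 ζ⁻¹ (by rw [inv_pow, hζ, inv_one]))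
    (AlgHom.ext fun u => by
      rw [AlgHom.comp_apply, tHom_tHom, tHom_congr N h9 (mul_inv_cancel ζ), tHom_one]; rfl)
    (AlgHom.ext fun u => by
      rw [AlgHom.comp_apply, tHom_tHom, tHom_congr N h9 (inv_mul_cancel ζ), tHom_one]; rfl)

theorem coe_tAut (ζ : Kbˣ) (hζ : ζ ^ 3 = 1) (u : FN N) :
    ((tAut N h9 ζ hζ u : FN N) : LaurentSeries Kb) = rotR ζ (u : LaurentSeries Kb) := rfl

theorem tAut_apply (ζ : Kbˣ) (hζ : ζ ^ 3 = 1) (u : FN N) : tAut N h9 ζ hζ u = tHom N h9 ζ hζ u := rfl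

theorem tAut_symm_apply (ζ : Kbˣ) (hζ : ζ ^ 3 = 1) (u : FN N) :
    (tAut N h9 ζ hζ).symm u = tAut N h9 ζ⁻¹ (by rw [inv_pow, hζ, inv_one]) u := rfl

theorem tAut_tAut (ζ ξ : Kbˣ) (hζ : ζ ^ 3 = 1) (hξ : ξ ^ 3 = 1) (u : FN N) :
    tAut N h9 ζ hζ (tAut N h9 ξ hξ u) = tAut N h9 (ζ * ξ) (by rw [mul_pow, hζ, hξ, one_mul]) u :=
  tHom_tHom N h9 ζ ξ hζ hξ u

/-- analytic description: `Θ (t_ω u) = (Θ u)(τ + 1/3)`. -/
theorem ThetaMer_tAut (u : FN N) :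
    ThetaMer N (tAut N h9 omega3 omega3_pow u) =
      merGL (trMat (1 / 3)) (det_trMat_pos _) (ThetaMer N u) := by
  rw [← thetaK_iotaK, AD.thetaK_apply, AD.thetaK_apply, ← toMer_trPer]
  congr 1
  rw [AD.thetaPer_eq_iff, toLaurent_trPer, AD.toLaurent_thetaPer, ← map_omega3, ← coeffMap_rotR]
  rfl

end

end Fermat.Agent.ML.At2
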