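import Fermat.Agent.ML.At2.Ops.Kum
import Fermat.Agent.ML.At2.Car.Bridge4P

/-!
# ML / AT-2 / (E2) : from invariance under `t`, `w` on `J₀` to invariance of the potential

`y ∈ J₀(L)[m]` is the Kummer class of `bd P`, `P` a `Γ₀(L)`-potential.  If `a` is an endomorphism of
`F_L` with `Θ (a u) = (Θ u) ∘ B`, `B ∈ GL₂(ℚ)` normalising `Γ₀(L)`, and `a^* y = y`, then
`P ∘ B - P` is `Γ₀(L)`-invariant.  Instances : `t` (`τ ↦ τ + 1/3`), `W_Q`.
Output : the hypotheses of `car_soft` / `car_soft_A` / `car_soft_C`.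
-/

set_option autoImplicit false
set_option linter.unusedSectionVars false
set_option linter.unusedSimpArgs false

open AlgebraicCurve ModularCurve CongruenceSubgroup ModularForm OnePoint
open scoped MatrixGroups
open Matrix.SpecialLinearGroup (mapGL)
open Fermat.Agent.S24 Fermat.Agent.GAL Fermat.Agent.GAL.HeckeEquiv Fermat.Agent.RED.ES
open Fermat.Agent.S48.ModL.HP Fermat.Agent.S41 Fermat.Agent.S41.Soft

namespace Fermat.Agent.ML.At2

noncomputable section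

variable {L m : ℕ} [NeZero L] [NeZero m]

/-- **generic bridge, potential form.** -/
theorem isInv_of_jPull_eq (a : FN L →ₐ[Kb] FN L) (B : GL (Fin 2) ℚ)
    (hB : 0 < (castGL B).det.val)
    (ha : ∀ u, ThetaMer L (a u) = merGL (castGL B) hB (ThetaMer L u))
    (hn : Nrm1 (Gamma0 L) B) {P : Symb (Gamma0 L) (ZMod m)} {y : JZero L}
    (hk : IsKummer L m (chiOf (bd (Gamma0 L) (ZMod m) P : Additive (Gamma0 L) →+ ZMod m)) y)
    (hy : RIB.jPull a y = y) :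
    IsInv (Gamma0 L) (fun s => P.1 (B • s) - P.1 s) := by
  have hP' : (fun s => P.1 (B • s)) ∈ Symb (Gamma0 L) (ZMod m) :=
    mem_Symb_iff_soft.2 (isPot_comp_nrm (mem_Symb_iff_soft.1 P.2) hn)
  have hex : ∀ γ : Gamma0 L, ∃ γ' : Gamma0 L,
      castGL B * mapGL ℝ (γ : SL(2, ℤ)) = mapGL ℝ (γ' : SL(2, ℤ)) * castGL B := by
    intro γ
    obtain ⟨γ', h', e⟩ := hn γ γ.2
    refine ⟨⟨γ', h'⟩, ?_⟩
    rw [← castGL_mapGL, ← castGL_mapGL, ← map_mul, ← map_mul, e]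
  have hk' : IsKummer L m (chiOf (bd (Gamma0 L) (ZMod m)
      (⟨fun s => P.1 (B • s), hP'⟩ : Symb (Gamma0 L) (ZMod m)) :
        Additive (Gamma0 L) →+ ZMod m)) (RIB.jPull a y) := by
    refine isKummer_jPull a (castGL B) hB ha hex hk _ ?_
    intro γ γ' e
    have e' : B * mapGL ℚ (γ : SL(2, ℤ)) = mapGL ℚ (γ' : SL(2, ℤ)) * B := by
      apply castGL_injective
      rw [map_mul, map_mul, castGL_mapGL, castGL_mapGL, e]
    ext
    rw [coe_chiOf, coe_chiOf, bd_apply _ γ ∞, bd_apply _ γ' (B • ∞)]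
    show ZMod.stdAddChar (P.1 (B • mapGL ℚ (γ : SL(2, ℤ)) • ∞) - P.1 (B • ∞)) = _
    rw [← mul_smul, e', mul_smul]
  rw [hy] at hk'
  have huniq := isKummer_hom_unique hk' hk
  have h3 : bd (Gamma0 L) (ZMod m)
      ((⟨fun s => P.1 (B • s), hP'⟩ : Symb (Gamma0 L) (ZMod m)) - P) = 0 := by
    rw [map_sub, sub_eq_zero]
    exact Subtype.ext huniq
  exact (bd_eq_zero_iff _).1 h3

theorem castGL_trQ_three : castGL (trQ 3) = trMat (1 / 3) := by
  ext a b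
  rw [castGL_apply]
  show (((trQ 3 : GL (Fin 2) ℚ) : Matrix (Fin 2) (Fin 2) ℚ) a b : ℝ) =
    ((trMat (1 / 3) : GL (Fin 2) ℝ) : Matrix (Fin 2) (Fin 2) ℝ) a b
  rw [trQ, val_utQ, trMat, val_upperTriangularGL]
  fin_cases a <;> fin_cases b <;> simp

theorem castGL_wQ (N Q : ℕ) [NeZero Q] (x y : ℤ) (h : (Q : ℤ) * x - N * y = 1) :
    castGL (wQ N Q x y h) = wGL N Q x y h := by
  ext a b
  rw [castGL_apply]
  show (((wQ N Q x y h : GL (Fin 2) ℚ) : Matrix (Fin 2) (Fin 2) ℚ) a b : ℝ) =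
    (wMat N Q x y) a b
  rw [val_wQ, wMat]
  fin_cases a <;> fin_cases b <;> simp

/-- `t`-invariance of `y` ⟹ `t`-invariance of the class of the potential. -/
theorem isInv_trQ_of_tHom (h9 : 9 ∣ L) (hn : Nrm1 (Gamma0 L) (trQ 3))
    {P : Symb (Gamma0 L) (ZMod m)} {y : JZero L}
    (hk : IsKummer L m (chiOf (bd (Gamma0 L) (ZMod m) P : Additive (Gamma0 L) →+ ZMod m)) y)
    (hy : RIB.jPull (tHom L h9 omega3 omega3_pow) y = y) :
    IsInv (Gamma0 L) (fun s => P.1 (trQ 3 • s) - P.1 s) := by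
  have hB : 0 < (castGL (trQ 3)).det.val := by rw [castGL_trQ_three]; exact det_trMat_pos _
  refine isInv_of_jPull_eq (tHom L h9 omega3 omega3_pow) (trQ 3) hB ?_ hn hk hy
  intro u
  rw [ThetaMer_tHom]
  exact merGL_congr castGL_trQ_three.symm _ _

/-- `W_Q`-invariance of `y` ⟹ `W_Q`-invariance of the class of the potential. -/
theorem isInv_wQ_of_wHom (N' Q : ℕ) [NeZero N'] [NeZero Q] (hL : L = N' * Q) (x y : ℤ)
    (h : (Q : ℤ) * x - N' * y = 1)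
    {P : Symb (Gamma0 L) (ZMod m)} {z : JZero L}
    (hk : IsKummer L m (chiOf (bd (Gamma0 L) (ZMod m) P : Additive (Gamma0 L) →+ ZMod m)) z)
    (hz : RIB.jPull (wHom L N' Q hL x y h) z = z) :
    IsInv (Gamma0 L) (fun s => P.1 (wQ N' Q x y h • s) - P.1 s) := by
  have hB : 0 < (castGL (wQ N' Q x y h)).det.val := by rw [castGL_wQ]; exact det_wGL_pos _ _ _ _ _
  refine isInv_of_jPull_eq (wHom L N' Q hL x y h) (wQ N' Q x y h) hB ?_ ?_ hk hz
  · intro u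
    rw [ThetaMer_wHom]
    exact merGL_congr (castGL_wQ N' Q x y h).symm _ _
  · rw [hL]
    exact (wQ_mem_nrmGrp N' Q x y h).1

/-! ### the hypotheses of the soft Carayol descent -/

variable {N : ℕ} [NeZero N]

theorem nrm1_trQ_three : Nrm1 (Gamma0 (N * 3 * 3)) (trQ 3) := by
  rw [← tQ_one_eq_trQ]
  exact nrm1_tQ (by norm_num) sq1_three 1

/-- **(E2), first half, case `C₃`** (only `t`): descent of the potential to `Γ₀(N·3)`. -/
theorem e2_pot_C (h9 : 9 ∣ N * 3 * 3) {z : JZero (N * 3 * 3)} (hz : m • z = 0)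
    (ht : RIB.jPull (tHom (N * 3 * 3) h9 omega3 omega3_pow) z = z) :
    ∃ P : Symb (Gamma0 (N * 3 * 3)) (ZMod m),
      IsKummer (N * 3 * 3) m (chiOf (bd (Gamma0 (N * 3 * 3)) (ZMod m) P :
        Additive (Gamma0 (N * 3 * 3)) →+ ZMod m)) z ∧
      ∀ l : ℕ, l.Prime → ((N * 3 * 3 : ℕ) : ℤ) ∣ (l : ℤ) - 1 →
        IsPot (Gamma0 (N * 3)) (fun s => DD l P.1 ((dgQ 3)⁻¹ • s)) := by
  obtain ⟨P, hk⟩ := exists_symb_of_torsion hz
  refine ⟨P, hk, fun l hl hl1 => ?_⟩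
  exact car_soft_C Nat.prime_three hl hl1 (mem_Symb_iff_soft.1 P.2)
    (isInv_trQ_of_tHom h9 nrm1_trQ_three hk ht)

/-- **(E2), first half, case `A₄`** (`t` and `w₉`): descent of the potential to `Γ₀(N)`. -/
theorem e2_pot_A (hN : ¬ 3 ∣ N) (h9 : 9 ∣ N * 3 * 3) (hL : N * 3 * 3 = N * 9) (x y : ℤ)
    (h : ((9 : ℕ) : ℤ) * x - N * y = 1) {z : JZero (N * 3 * 3)} (hz : m • z = 0)
    (ht : RIB.jPull (tHom (N * 3 * 3) h9 omega3 omega3_pow) z = z)
    (hw : RIB.jPull (wHom (N * 3 * 3) N 9 hL x y h) z = z) :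
    ∃ P : Symb (Gamma0 (N * 3 * 3)) (ZMod m),
      IsKummer (N * 3 * 3) m (chiOf (bd (Gamma0 (N * 3 * 3)) (ZMod m) P :
        Additive (Gamma0 (N * 3 * 3)) →+ ZMod m)) z ∧
      ∀ l : ℕ, l.Prime → ((N * 3 * 3 : ℕ) : ℤ) ∣ (l : ℤ) - 1 →
        IsPot (Gamma0 N) (fun s => DD l P.1 ((dgQ 3)⁻¹ • s)) := by
  obtain ⟨P, hk⟩ := exists_symb_of_torsion hz
  refine ⟨P, hk, fun l hl hl1 => ?_⟩
  have hP := mem_Symb_iff_soft.1 P.2
  have h1 := isInv_trQ_of_tHom h9 nrm1_trQ_three hk ht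
  have h2 := isInv_wQ_of_wHom N 9 hL x y h hk hw
  have ht' : tQ 3 1 ∈ stab (Gamma0 (N * 3 * 3)) P.1 :=
    tQ_mem_stab (by norm_num) sq1_three (by rw [tQ_one_eq_trQ]; exact h1)
  have hw' : wQ N (3 * 3) x y h ∈ stab (Gamma0 (N * 3 * 3)) P.1 := wQ_mem_stab h2
  exact car_soft_A Nat.prime_three hl hl1 hP h1 fun g hg =>
    (mapGL_mem_of_mem_Gamma0_mul Nat.prime_three hN (fun _ hg' => mapGL_mem_stab hP hg') ht' hw'
      g hg).2

end

end Fermat.Agent.ML.At2
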