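import Fermat.Agent.ML.At2.Ops.Pot
import Fermat.Agent.ML.At2.Car3.Main
import Fermat.Agent.ML.At2.KeyEq.Inst
import Fermat.Agent.ML.At2.PrimeR5
import Fermat.Agent.RIB.Up.Vanish

/-!
# ML / AT-2 / (E2) : `E2AStmt`, `E2BStmt`, hence `Lower2Stmt`

`y ∈ W_S(9 M)` (resp. `W_S(3 M)`, `3 ∣ M`) invariant under `t` and `w₉` (resp. `t`).  Its potential
descends (`Ops/Pot.lean`), the soft Carayol descent (`Car3/Main.lean`) gives `y = d^* x'` with `x'` in
the `θ`-part of `J₀(M)`, which is zero.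
-/

set_option autoImplicit false
set_option linter.unusedSectionVars false
set_option linter.unusedVariables false

open AlgebraicCurve ModularCurve CongruenceSubgroup ModularForm OnePoint
open scoped MatrixGroups
open Matrix.SpecialLinearGroup (mapGL)
open Fermat.Agent.S24 Fermat.Agent.GAL Fermat.Agent.GAL.PC Fermat.Agent.RIB
open Fermat.Agent.S41 Fermat.Agent.S41.Soft

namespace Fermat.Agent.ML.At2

noncomputable section

/-- **(E2), case `3 ∣ M`.** -/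
theorem e2B : E2BStmt := by
  intro p _ hp35 T θ rbar0 C M _ h2M h3 hsq hlev h0 h9 y hy ht
  have hp : p.Prime := Fact.out
  have : NeZero p := ⟨hp.ne_zero⟩
  obtain ⟨r, hr, hrT, -, hr3, hθr⟩ := C.exists_prime_two_mod_three_all hp35 ∅
  have hS : ∀ r : ℕ, r.Prime → r ∉ (↑T : Set ℕ) → ¬ r ∣ M * 3 * p := by
    intro ℓ hℓ hℓT hd
    apply hℓT
    rcases (Nat.Prime.dvd_mul hℓ).1 hd with hd | hd
    · rcases (Nat.Prime.dvd_mul hℓ).1 hd with hd | hd
      · exact hlev ℓ hℓ ((hd.mul_right 2).mul_right p)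
      · exact hlev ℓ hℓ (((hd.trans h3).mul_right 2).mul_right p)
    · exact hlev ℓ hℓ (hd.mul_left _)
  obtain ⟨P, hk⟩ := exists_symb_of_torsion (m := p) hy.2
  have hn : Nrm1 (Gamma0 (M * 3)) (trQ 3) := by
    obtain ⟨N, rfl⟩ := exists_eq_mul_left_of_dvd h3
    have : NeZero N := ⟨by rintro rfl; exact NeZero.ne (0 * 3) (by simp)⟩
    exact nrm1_trQ_three
  have htr := isInv_trQ_of_tHom h9 hn hk (ht omega3 omega3_pow)
  obtain ⟨x', hx', e⟩ := car_main_C hp C.hp2 Nat.prime_three h3 (C.nonEis T) hS ⟨r, hr⟩ hrT hr3 hθr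
    (pow_one p).symm hy.1 P hk htr
  rw [thetaPart_eq_bot_of_WS_eq_bot h0, AddSubgroup.mem_bot] at hx'
  rw [← e, hx', map_zero]

/-- **(E2), case `3 ∤ M`.** -/
theorem e2A : E2AStmt := by
  intro p _ hp35 T θ rbar0 C h3T M _ h2M h3 hsq hlev h0 h9 hL a b h y hy ht hw
  have hp : p.Prime := Fact.out
  have : NeZero p := ⟨hp.ne_zero⟩
  obtain ⟨r, hr, hrT, -, hr3, hθr⟩ := C.exists_prime_two_mod_three_all hp35 ∅
  have h3' : ∀ ℓ : ℕ, ℓ.Prime → ℓ ∣ 3 → ℓ ∈ T := fun ℓ hℓ hd => by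
    rw [(Nat.prime_dvd_prime_iff_eq hℓ Nat.prime_three).1 hd]; exact h3T
  have hS : ∀ r : ℕ, r.Prime → r ∉ (↑T : Set ℕ) → ¬ r ∣ M * 3 * 3 * p := by
    intro ℓ hℓ hℓT hd
    apply hℓT
    rcases (Nat.Prime.dvd_mul hℓ).1 hd with hd | hd
    · rcases (Nat.Prime.dvd_mul hℓ).1 hd with hd | hd
      · rcases (Nat.Prime.dvd_mul hℓ).1 hd with hd | hd
        · exact hlev ℓ hℓ ((hd.mul_right 2).mul_right p)
        · exact h3' ℓ hℓ hd
      · exact h3' ℓ hℓ hd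
    · exact hlev ℓ hℓ (hd.mul_left _)
  obtain ⟨P, hk⟩ := exists_symb_of_torsion (m := p) hy.2
  have hP := mem_Symb_iff_soft.1 P.2
  have h1 := isInv_trQ_of_tHom h9 nrm1_trQ_three hk (ht omega3 omega3_pow)
  have h2 := isInv_wQ_of_wHom M 9 hL a b h hk hw
  have ht' : tQ 3 1 ∈ stab (Gamma0 (M * 3 * 3)) P.1 :=
    tQ_mem_stab (by norm_num) sq1_three (by rw [tQ_one_eq_trQ]; exact h1)
  have hw' : wQ M (3 * 3) a b h ∈ stab (Gamma0 (M * 3 * 3)) P.1 := wQ_mem_stab h2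
  obtain ⟨x', hx', e⟩ := car_main_A hp C.hp2 Nat.prime_three h3 (C.nonEis T) h3T hS ⟨r, hr⟩ hrT hr3
    hθr (pow_one p).symm hy.1 P hk h1 fun g hg =>
      (mapGL_mem_of_mem_Gamma0_mul Nat.prime_three h3 (fun _ hg' => mapGL_mem_stab hP hg') ht' hw'
        g hg).2
  rw [thetaPart_eq_bot_of_WS_eq_bot h0, AddSubgroup.mem_bot] at hx'
  rw [← e, hx', map_zero, map_zero]

/-- **AT-2 (N3)** : `Lower2Stmt`, unconditional. -/
theorem lower2Stmt : Lower2Stmt := lower2_of_e2 e2A e2B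

end

end Fermat.Agent.ML.At2
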