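import Fermat.Agent.S48.ModL.HP.Trans
import Fermat.Agent.GAL.AD.Range
import Fermat.Agent.GAL.Sup.K1b
import Fermat.Agent.GAL.Sup.K1a
import Fermat.Agent.GAL.DescentBaseChange

/-!
# ML / AT-2 / OPS : the rotation `q ↦ ζ₃ q` preserves the function field of `X₀(N)`, `9 ∣ N`

`τ ↦ τ + 1/3` normalises `Γ₀(N)` when `9 ∣ N`.   For `u ∈ F_N` the function `G = (Θ u)(τ + 1/3)` is `Γ₀(N)`-invariant and algebraic
over `ℂ(j)` (because `j(τ + 1/3) = j₉(τ / (3 τ + 1))`), so it lies in `ℂ F_N` (`GAL.AD.exists_thetaK_eq_of_invariant`); its `q`-expansion is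
`u(ζ₃ q)`, which has coefficients in `Qbar`, so `u(ζ₃ q) ∈ F_N` (`GAL.Descent.mem_laurentBaseChange_of_coeffMap_mem`).
-/

set_option autoImplicit false

open UpperHalfPlane hiding I
open Function ModularCurve CongruenceSubgroup ModularForm IntermediateField
open scoped Manifold MatrixGroups Real
open Matrix.SpecialLinearGroup (mapGL)
open Fermat.Agent.S24 Fermat.Agent.GAL Fermat.Agent.GAL.HeckeEquiv Fermat.Agent.RED.ES
open Fermat.Agent.S48.ModL.HP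

namespace Fermat.Agent.ML.At2

noncomputable section

/-! ### transport of algebraicity over `ℂ(j)` -/

theorem isAlgebraic_map_mer (φ : Mer →ₐ[ℂ] Mer) (hφ : IsAlgebraic ℂ⟮jMer 1⟯ (φ (jMer 1))) {x : Mer}
    (hx : IsAlgebraic ℂ⟮jMer 1⟯ x) : IsAlgebraic ℂ⟮jMer 1⟯ (φ x) := by
  set L : IntermediateField ℂ⟮jMer 1⟯ Mer := algebraicClosure ℂ⟮jMer 1⟯ Mer with hL
  have h1 : ℂ⟮jMer 1⟯ ≤ (L.restrictScalars ℂ).comap φ := by
    rw [IntermediateField.adjoin_le_iff, Set.singleton_subset_iff]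
    show φ (jMer 1) ∈ L
    rw [hL, mem_algebraicClosure_iff]
    exact hφ
  let ψ : ℂ⟮jMer 1⟯ →+* L :=
    (φ.toRingHom.comp (algebraMap ℂ⟮jMer 1⟯ Mer)).codRestrict L (fun c => h1 c.2)
  have h2 : IsAlgebraic L (φ x) :=
    IsAlgebraic.ringHom_of_comp_eq (f := ψ) (g := φ.toRingHom) hx ψ.injective (RingHom.ext fun c => rfl)
  exact h2.restrictScalars ℂ⟮jMer 1⟯

/-! ### `j(τ + 1/3) = j₉(τ / (3 τ + 1))` -/

/-- `[[1,0],[3,1]]` -/
def g31 : SL(2, ℤ) := ⟨!![1, 0; 3, 1], by rw [Matrix.det_fin_two_of]; norm_num⟩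

/-- `[[3,-1],[1,0]]` -/
def g3m : SL(2, ℤ) := ⟨!![3, -1; 1, 0], by rw [Matrix.det_fin_two_of]; norm_num⟩

theorem g3m_smul (τ : ℍ) : g3m • scal 1 ((1 / 3 : ℝ) +ᵥ τ) = scal 9 (g31 • τ) := by
  apply UpperHalfPlane.ext
  have h1 : (3 : ℂ) * τ + 1 ≠ 0 := by
    intro h
    have := congrArg Complex.im h
    simp at this
    exact τ.im_ne_zero this
  have h2 : (3⁻¹ : ℂ) + τ ≠ 0 := by
    intro h
    apply h1
    linear_combination 3 * h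
  rw [UpperHalfPlane.coe_specialLinearGroup_apply, coe_scal, coe_scal,
    UpperHalfPlane.coe_specialLinearGroup_apply, coe_vadd]
  simp [g3m, g31]
  rw [mul_div_assoc', div_eq_div_iff h2 h1]
  ring

theorem jd_one_vadd (τ : ℍ) : jd 1 ((1 / 3 : ℝ) +ᵥ τ) = jd 9 (g31 • τ) := by
  rw [jd, jd, ← g3m_smul, jfun_isSLInvariant]

theorem merGL_trMat_jMer_one :
    merGL (trMat (1 / 3)) (det_trMat_pos _) (jMer 1) = actMer g31⁻¹ (jMer 9) := by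
  rw [jMer, jMer, merGL_algebraMap, actMer_algebraMap]
  refine congrArg (algebraMap Hol Mer) ?_
  apply Subtype.ext
  funext τ
  rw [compGL_trMat_apply, actHol_apply, inv_inv]
  exact jd_one_vadd τ

theorem isAlgebraic_merGL_trMat {x : Mer} (hx : IsAlgebraic ℂ⟮jMer 1⟯ x) :
    IsAlgebraic ℂ⟮jMer 1⟯ (merGL (trMat (1 / 3)) (det_trMat_pos _) x) := by
  apply isAlgebraic_map_mer _ _ hx
  rw [merGL_trMat_jMer_one]
  exact isAlgebraic_actMer _ (isAlgebraic_jMer (N := 9) dvd_rfl)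

/-! ### `τ ↦ τ + 1/3` normalises `Γ₀(N)`, `9 ∣ N` -/

theorem mem_Gamma0_iff_dvd_ops (N : ℕ) (A : SL(2, ℤ)) : A ∈ Gamma0 N ↔ (N : ℤ) ∣ A 1 0 := by
  rw [Gamma0_mem, ZMod.intCast_zmod_eq_zero_iff_dvd]

theorem three_dvd_sub_of_det {a b c d : ℤ} (h : a * d - b * c = 1) (hc : (3 : ℤ) ∣ c) :
    (3 : ℤ) ∣ d - a := by
  have key : ∀ x y : ZMod 3, x * y = 1 → y - x = 0 := by decide
  have h1 : ((a : ZMod 3)) * (d : ZMod 3) = 1 := by
    have h2 : ((c : ℤ) : ZMod 3) = 0 := (ZMod.intCast_zmod_eq_zero_iff_dvd c 3).mpr (by exact_mod_cast hc)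
    have h3 := congrArg (fun z : ℤ => (z : ZMod 3)) h
    simp only [Int.cast_sub, Int.cast_mul, Int.cast_one, h2, mul_zero, sub_zero] at h3
    exact h3
  have h4 := key _ _ h1
  rw [← Int.cast_sub, ZMod.intCast_zmod_eq_zero_iff_dvd] at h4
  exact_mod_cast h4

theorem exists_conj_trMat {N : ℕ} (h9 : 9 ∣ N) (g : Gamma0 N) : ∃ g' : Gamma0 N,
    trMat (1 / 3) * mapGL ℝ (g : SL(2, ℤ)) = mapGL ℝ (g' : SL(2, ℤ)) * trMat (1 / 3) := by
  obtain ⟨c₀, hc₀⟩ := (mem_Gamma0_iff_dvd_ops N _).mp g.2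
  obtain ⟨n, rfl⟩ := h9
  have hdet := Matrix.det_fin_two ((g : SL(2, ℤ)) : Matrix (Fin 2) (Fin 2) ℤ)
  rw [(g : SL(2, ℤ)).2] at hdet
  obtain ⟨e, he⟩ := three_dvd_sub_of_det hdet.symm
    (by rw [hc₀]; push_cast; exact ⟨3 * n * c₀, by ring⟩)
  let g' : SL(2, ℤ) := ⟨!![(g : SL(2, ℤ)) 0 0 + 3 * n * c₀, (g : SL(2, ℤ)) 0 1 + e - n * c₀;
      ((9 * n : ℕ) : ℤ) * c₀, (g : SL(2, ℤ)) 1 1 - 3 * n * c₀], by
    rw [Matrix.det_fin_two_of]
    rw [hc₀] at hdet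
    push_cast at hdet ⊢
    linear_combination -hdet + 3 * n * c₀ * he⟩
  have h00 : g' 0 0 = (g : SL(2, ℤ)) 0 0 + 3 * n * c₀ := rfl
  have h01 : g' 0 1 = (g : SL(2, ℤ)) 0 1 + e - n * c₀ := rfl
  have h10 : g' 1 0 = ((9 * n : ℕ) : ℤ) * c₀ := rfl
  have h11 : g' 1 1 = (g : SL(2, ℤ)) 1 1 - 3 * n * c₀ := rfl
  clear_value g'
  refine ⟨⟨g', (mem_Gamma0_iff_dvd_ops _ _).mpr ⟨c₀, h10⟩⟩, ?_⟩
  apply Units.ext
  rw [Units.val_mul, Units.val_mul, trMat, val_upperTriangularGL]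
  have hc₀' : (((g : SL(2, ℤ)) 1 0 : ℤ) : ℝ) = 9 * n * c₀ := by
    rw [hc₀]; push_cast; ring
  have he' : (((g : SL(2, ℤ)) 1 1 : ℤ) : ℝ) = ((g : SL(2, ℤ)) 0 0 : ℤ) + 3 * e := by
    have : (g : SL(2, ℤ)) 1 1 = (g : SL(2, ℤ)) 0 0 + 3 * e := by linarith
    rw [this]; push_cast; ring
  ext i j
  fin_cases i <;> fin_cases j <;>
    simp [Matrix.mul_apply, Fin.sum_univ_two, h00, h01, h10, h11, hc₀', he'] <;> ring

/-! ### the main theorem -/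

theorem actMer_merGL_trMat {N : ℕ} (h9 : 9 ∣ N) {K : Type*} [Field K] [Algebra ℚ K] (ι : K →+* ℂ)
    (u : AD.FK K N) {γ : SL(2, ℤ)} (hγ : γ ∈ Gamma0 N) :
    actMer γ (merGL (trMat (1 / 3)) (det_trMat_pos _) (AD.thetaK ι N u)) =
      merGL (trMat (1 / 3)) (det_trMat_pos _) (AD.thetaK ι N u) := by
  obtain ⟨g', hg'⟩ := exists_conj_trMat h9 (⟨γ, hγ⟩⁻¹ : Gamma0 N)
  have hg'' : trMat (1 / 3) * mapGL ℝ γ⁻¹ = mapGL ℝ (g' : SL(2, ℤ)) * trMat (1 / 3) := hg'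
  rw [actMer_eq_merGL, merGL_merGL, merGL_congr hg'',
    ← merGL_merGL _ _ (det_trMat_pos _) (det_mapGL_pos (g' : SL(2, ℤ))), merGL_mapGL,
    AD.actMer_thetaK ι (inv_mem g'.2)]

/-- **the rotation by `e^{2πi/3}` preserves the function field of `X₀(N)`, `9 ∣ N`.** -/
theorem rotR_mem_of_iotaK {N : ℕ} [NeZero N] (h9 : 9 ∣ N) (ω : Kbˣ)
    (hω : Units.map (iotaK.toRingHom : Kb →* ℂ) ω = expU (1 / 3)) (u : AD.FK Kb N) :
    rotR ω (u : LaurentSeries Kb) ∈ AD.FKf Kb N := by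
  obtain ⟨w, hw⟩ := AD.exists_thetaK_eq_of_invariant N
    (merGL (trMat (1 / 3)) (det_trMat_pos _) (AD.thetaK iotaK.toRingHom N u))
    (fun γ hγ => actMer_merGL_trMat h9 _ u hγ)
    (isAlgebraic_merGL_trMat (AD.isAlgebraic_thetaK N _ u))
  apply Descent.mem_laurentBaseChange_of_coeffMap_mem iotaK.toRingHom
  have h1 : AD.thetaPer (RingHom.id ℂ) N w = trPer (1 / 3) (AD.thetaPer iotaK.toRingHom N u) := by
    apply toMer_injective 1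
    rw [toMer_trPer, ← AD.thetaK_apply, ← AD.thetaK_apply, hw]
  have h2 := congrArg (toLaurent 1) h1
  rw [AD.toLaurent_thetaPer, toLaurent_trPer, AD.toLaurent_thetaPer, coeffMap_id] at h2
  rw [coeffMap_rotR, hω, ← h2]
  exact w.2

end

end Fermat.Agent.ML.At2
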